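/-
S18 / Program J, leaf B6 (helper87), generic part.

For the abstract local data of the landed S24 closure (`Fermat.Agent.S24.LocalData`: `|X|`
embeddings `φ x : F → ℂ((z))` which agree on `K(π)` and whose symmetric functions on `R` come from
`K(π)`), the extension `F / K(π)` is finite of degree exactly `|X|` (characteristic zero).
-/
import Fermat.Agent.S24.Algebraic

set_option autoImplicit false

open AlgebraicCurve

noncomputable section

namespace Fermat.Agent.S18.H87

open Fermat.Agent.S24

variable {K F X : Type*} [Field K] [Field F] [Algebra K F] [Fintype X]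
  {R : Subalgebra K F} {π : F}

/-- Ring homomorphisms commute with elementary symmetric functions of multisets. -/
theorem map_multiset_esymm {A B : Type*} [CommSemiring A] [CommSemiring B] (f : A →+* B)
    (s : Multiset A) (k : ℕ) : f (s.esymm k) = (s.map f).esymm k := by
  simp only [Multiset.esymm, map_multiset_sum, Multiset.map_map, Multiset.powersetCard_map]
  refine congrArg Multiset.sum (Multiset.map_congr rfl fun t _ => ?_)
  simp [map_multiset_prod]

/-- All the embeddings `φ x` agree on `K(π)`. -/
theorem phi_eq_of_mem_adjoin (L : LocalData K F X R π) (x y : X) {e : F}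
    (he : e ∈ IntermediateField.adjoin K {π}) : L.φ x e = L.φ y e := by
  induction he using IntermediateField.adjoin_induction with
  | mem a ha =>
    rw [Set.mem_singleton_iff.mp ha]
    exact L.φ_π x y
  | algebraMap a => rw [L.φ_algebraMap, L.φ_algebraMap]
  | add a b _ _ ha hb => rw [map_add, map_add, ha, hb]
  | inv a _ ha => rw [map_inv₀, map_inv₀, ha]
  | mul a b _ _ ha hb => rw [map_mul, map_mul, ha, hb]

/-- **Degree from local data.**  In characteristic zero, `F / K(π)` is finite of degree `|X|`. -/
theorem finrank_adjoin_eq_card [CharZero K] [Nonempty X] (L : LocalData K F X R π)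
    (hR : ∀ f : F, ∃ a ∈ R, ∃ b ∈ R, b ≠ 0 ∧ f = a / b) :
    FiniteDimensional (IntermediateField.adjoin K {π}) F ∧
      Module.finrank (IntermediateField.adjoin K {π}) F = Fintype.card X := by
  classical
  have halg : Algebra.IsAlgebraic (IntermediateField.adjoin K {π}) F := L.isAlgebraic hR
  obtain ⟨x₀⟩ := (inferInstance : Nonempty X)
  let Ω := AlgebraicClosure (LaurentSeries ℂ)
  let incl : LaurentSeries ℂ →+* Ω := algebraMap (LaurentSeries ℂ) Ω
  have hincl : Function.Injective incl := incl.injective
  let ψ : X → (F →+* Ω) := fun y => incl.comp (L.φ y)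
  let algEΩ : Algebra (IntermediateField.adjoin K {π}) Ω :=
    ((ψ x₀).comp (algebraMap (IntermediateField.adjoin K {π}) F)).toAlgebra
  have hcomm : ∀ (y : X) (e : IntermediateField.adjoin K {π}),
      ψ y (algebraMap (IntermediateField.adjoin K {π}) F e)
        = algebraMap (IntermediateField.adjoin K {π}) Ω e := by
    intro y e
    show incl (L.φ y (e : F)) = incl (L.φ x₀ (e : F))
    rw [phi_eq_of_mem_adjoin L y x₀ e.2]
  let Ψ : X → (F →ₐ[IntermediateField.adjoin K {π}] Ω) := fun y =>
    { ψ y with commutes' := hcomm y }
  have hΨ : ∀ y f, Ψ y f = incl (L.φ y f) := fun _ _ => rfl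
  have hΨinj : Function.Injective Ψ := by
    intro y y' h
    apply L.φ_injective
    refine RingHom.ext fun f => hincl ?_
    rw [← hΨ, ← hΨ, h]
  have hΨsurj : Function.Surjective Ψ := by
    intro σ
    have hK : ∀ (y : X) (c : K), σ (algebraMap K F c) = Ψ y (algebraMap K F c) := by
      intro y c
      have h1 : σ (algebraMap (IntermediateField.adjoin K {π}) F
          (algebraMap K (IntermediateField.adjoin K {π}) c))
          = algebraMap (IntermediateField.adjoin K {π}) Ω
            (algebraMap K (IntermediateField.adjoin K {π}) c) := σ.commutes _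
      rw [← hcomm y] at h1
      exact h1
    have hpt : ∀ a ∈ R, ∃ y, σ a = Ψ y a := by
      intro a ha
      obtain ⟨ε, hε1, hε2, hε3⟩ := L.monic_relation ha
      have h1 := congrArg σ hε3
      rw [map_zero, map_sum] at h1
      set s : Multiset Ω := Finset.univ.val.map fun y => Ψ y a with hs
      have hcard : Multiset.card s = Fintype.card X := by
        rw [hs, Multiset.card_map]
        rfl
      have hσε : ∀ k, σ (ε k) = s.esymm k := by
        intro k
        have h2 : σ (algebraMap (IntermediateField.adjoin K {π}) F ⟨ε k, hε1 k⟩)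
            = algebraMap (IntermediateField.adjoin K {π}) Ω ⟨ε k, hε1 k⟩ := σ.commutes _
        have h3 : algebraMap (IntermediateField.adjoin K {π}) Ω ⟨ε k, hε1 k⟩
            = incl (L.φ x₀ (ε k)) := rfl
        rw [h3, hε2 k x₀, map_multiset_esymm, Multiset.map_map] at h2
        exact h2
      have h4 : (s.map fun b => Polynomial.X - Polynomial.C b).prod.eval (σ a) = 0 := by
        rw [Multiset.prod_X_sub_X_eq_sum_esymm, Polynomial.eval_finsetSum, hcard, ← h1]
        refine Finset.sum_congr rfl fun k _ => ?_
        simp [hσε k, mul_assoc]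
      rw [Polynomial.eval_multiset_prod, Multiset.prod_eq_zero_iff] at h4
      simp only [Multiset.map_map, Multiset.mem_map, hs, Finset.mem_univ_val, true_and,
        Function.comp] at h4
      obtain ⟨y, hy⟩ := h4
      refine ⟨y, ?_⟩
      simpa [sub_eq_zero] using hy
    -- the subspaces of `R` where `σ` agrees with `Ψ y`
    let W : X → Submodule K R := fun y =>
      { carrier := {a | σ (a : F) = Ψ y (a : F)}
        add_mem' := by
          intro a b ha hb
          show σ ((a + b : R) : F) = Ψ y ((a + b : R) : F)
          rw [Subalgebra.coe_add, map_add, map_add, ha, hb]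
        zero_mem' := by
          show σ ((0 : R) : F) = Ψ y ((0 : R) : F)
          rw [Subalgebra.coe_zero, map_zero, map_zero]
        smul_mem' := by
          intro c a ha
          show σ ((c • a : R) : F) = Ψ y ((c • a : R) : F)
          rw [Subalgebra.coe_smul, Algebra.smul_def, map_mul, map_mul, hK y c, ha] }
    have hcov : ⋃ y, (W y : Set R) = Set.univ := by
      refine Set.eq_univ_of_forall fun a => ?_
      obtain ⟨y, hy⟩ := hpt a a.2
      exact Set.mem_iUnion.mpr ⟨y, hy⟩
    obtain ⟨y, hy⟩ := Subspace.exists_eq_top_of_iUnion_eq_univ hcov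
    refine ⟨y, ?_⟩
    have hW : ∀ a ∈ R, σ a = Ψ y a := by
      intro a ha
      have : (⟨a, ha⟩ : R) ∈ W y := by rw [hy]; trivial
      exact this
    refine AlgHom.ext fun f => ?_
    obtain ⟨a, ha, b, hb, -, rfl⟩ := hR f
    rw [map_div₀, map_div₀, hW a ha, hW b hb]
  have hbij : Function.Bijective Ψ := ⟨hΨinj, hΨsurj⟩
  have : Finite (F →ₐ[IntermediateField.adjoin K {π}] Ω) := Finite.of_surjective Ψ hΨsurj
  have hcardΨ : Nat.card (F →ₐ[IntermediateField.adjoin K {π}] Ω) = Fintype.card X := by
    rw [← Nat.card_eq_fintype_card]
    exact (Nat.card_congr (Equiv.ofBijective Ψ hbij)).symm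
  have : CharZero (IntermediateField.adjoin K {π}) :=
    charZero_of_injective_algebraMap (algebraMap K (IntermediateField.adjoin K {π})).injective
  have hfd : FiniteDimensional (IntermediateField.adjoin K {π}) F := by
    by_contra hnfd
    obtain ⟨F', hF'fd, hlt⟩ :=
      IntermediateField.exists_lt_finrank_of_infinite_dimensional hnfd (Fintype.card X)
    have := hF'fd
    have h1 : Nat.card (F' →ₐ[IntermediateField.adjoin K {π}] Ω)
        = Module.finrank (IntermediateField.adjoin K {π}) F' :=
      AlgHom.natCard_of_splits _ _ _ (fun _ => IsAlgClosed.splits _)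
    have h2 : Function.Surjective
        fun φ : F →ₐ[IntermediateField.adjoin K {π}] Ω => φ.domRestrict F' :=
      IsAlgClosed.surjective_domRestrict_of_isAlgebraic
    have h3 := Nat.card_le_card_of_surjective _ h2
    omega
  refine ⟨hfd, ?_⟩
  have := hfd
  rw [← hcardΨ]
  exact (AlgHom.natCard_of_splits _ _ _ (fun _ => IsAlgClosed.splits _)).symm

end Fermat.Agent.S18.H87
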