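/-
S18 / Program J, leaf B6 (helper87): the index `[F_{N'} : F_N]` for `N ∣ N'`.

* `finrank_adjoin_jgen` : `[F_N : ℚ̄(j)] = ψ(N)` (from the landed S24 global data and the landed
  S20 index formula);
* `modularFunctionFieldBar_mono` : `F_N ≤ F_{N'}` for `N ∣ N'`;
* `finrank_FN` : `F_{N'} / F_N` is finite and `[F_{N'} : F_N] * ψ(N) = ψ(N')`;
* `index_lcm_two`, `index_lcm_three` : for `N' = lcm(N, 2)` the index is `1` or `3`, for
  `N' = lcm(N, 3)` it is `1` or `4`;
* `exists_index_coprime` : the shape consumed by `exists_setup`.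
-/
import Fermat.Agent.S18.H87.Degree
import Fermat.Agent.S24.ModGlobal
import Fermat.Agent.S20.H77.Index

set_option autoImplicit false

open AlgebraicCurve ModularCurve

noncomputable section

namespace Fermat.Agent.S18.H87

open Fermat.Agent.S24

/-- `[F_N : ℚ̄(j)] = ψ(N)`. -/
theorem finrank_adjoin_jgen (N : ℕ) [NeZero N] :
    FiniteDimensional (IntermediateField.adjoin Kbar {jgen N}) (FF N) ∧
      Module.finrank (IntermediateField.adjoin Kbar {jgen N}) (FF N) = dedekindPsi N := by
  have : Fintype (XX N) := Fintype.ofFinite _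
  obtain ⟨G, -, -⟩ := exists_modularGlobalData N
  have h := finrank_adjoin_eq_card (G.fin 0) G.frac
  have hj0 : jgen N - algebraMap Kbar (FF N) 0 = jgen N := by simp
  rw [hj0] at h
  refine ⟨h.1, ?_⟩
  rw [h.2, ← Nat.card_eq_fintype_card]
  exact S20.H77.card_quotient_Gamma0 N

/-- `F_N ≤ F_{N'}` for `N ∣ N'`. -/
theorem modularFunctionFieldBar_mono {N N' : ℕ} [NeZero N] [NeZero N'] (h : N ∣ N') :
    modularFunctionFieldBar N ≤ modularFunctionFieldBar N' := by
  show laurentBaseChange Kbar (modularFunctionFieldFull N)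
    ≤ laurentBaseChange Kbar (modularFunctionFieldFull N')
  rw [laurentBaseChange, IntermediateField.adjoin_le_iff]
  rintro _ ⟨y, hy, rfl⟩
  exact coeffEmb_mem_laurentBaseChange _ (full_degeneracy_le h hy)

/-- `F_{N'} / F_N` is finite and `[F_{N'} : F_N] * ψ(N) = ψ(N')`. -/
theorem finrank_FN (N N' : ℕ) [NeZero N] [NeZero N']
    (hle : modularFunctionFieldBar N ≤ modularFunctionFieldBar N') :
    letI : Algebra (FF N) (FF N') := (IntermediateField.inclusion hle).toRingHom.toAlgebra
    Module.Finite (FF N) (FF N') ∧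
      Module.finrank (FF N) (FF N') * dedekindPsi N = dedekindPsi N' := by
  let _ : Algebra (FF N) (FF N') := (IntermediateField.inclusion hle).toRingHom.toAlgebra
  obtain ⟨hfd, hdeg⟩ := finrank_adjoin_jgen N
  obtain ⟨hfd', hdeg'⟩ := finrank_adjoin_jgen N'
  let _ : Algebra (IntermediateField.adjoin Kbar {jgen N}) (FF N') :=
    ((algebraMap (FF N) (FF N')).comp
      (algebraMap (IntermediateField.adjoin Kbar {jgen N}) (FF N))).toAlgebra
  have : IsScalarTower (IntermediateField.adjoin Kbar {jgen N}) (FF N) (FF N') :=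
    IsScalarTower.of_algebraMap_eq fun _ => rfl
  have hι : IntermediateField.inclusion hle (jgen N) = jgen N' := Subtype.ext rfl
  have hmap : (IntermediateField.adjoin Kbar {jgen N}).map (IntermediateField.inclusion hle)
      = IntermediateField.adjoin Kbar {jgen N'} := by
    rw [IntermediateField.adjoin_map, Set.image_singleton, hι]
  have h1 : Module.finrank (IntermediateField.adjoin Kbar {jgen N}) (FF N')
      = Module.finrank (IntermediateField.adjoin Kbar {jgen N'}) (FF N') :=
    Algebra.finrank_eq_of_equiv_equiv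
      ((IntermediateField.equivMap (IntermediateField.adjoin Kbar {jgen N})
        (IntermediateField.inclusion hle)).trans (IntermediateField.equivOfEq hmap)).toRingEquiv
      (RingEquiv.refl _) (RingHom.ext fun x => rfl)
  have h2 : Module.finrank (IntermediateField.adjoin Kbar {jgen N}) (FF N)
      * Module.finrank (FF N) (FF N')
      = Module.finrank (IntermediateField.adjoin Kbar {jgen N}) (FF N') :=
    Module.finrank_mul_finrank _ _ _
  have hpos : 0 < dedekindPsi N' := by
    rw [← hdeg']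
    exact Module.finrank_pos
  have hfin : Module.Finite (IntermediateField.adjoin Kbar {jgen N}) (FF N') := by
    apply Module.finite_of_finrank_pos
    rw [h1, hdeg']
    exact hpos
  refine ⟨Module.Finite.of_restrictScalars_finite (IntermediateField.adjoin Kbar {jgen N}) _ _, ?_⟩
  rw [← hdeg, ← hdeg', ← h1, ← h2, mul_comm]

/-- `ψ(N) > 0`. -/
theorem dedekindPsi_pos (N : ℕ) [NeZero N] : 0 < dedekindPsi N := by
  rw [← (finrank_adjoin_jgen N).2]
  have := (finrank_adjoin_jgen N).1
  exact Module.finrank_pos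

/-- If `ψ(N') = ψ(N)` (e.g. `N' = N`), the index is `1`. -/
theorem finrank_FN_of_psi_eq (N N' : ℕ) [NeZero N] [NeZero N']
    (hle : modularFunctionFieldBar N ≤ modularFunctionFieldBar N')
    (hψ : dedekindPsi N' = dedekindPsi N) :
    letI : Algebra (FF N) (FF N') := (IntermediateField.inclusion hle).toRingHom.toAlgebra
    Module.Finite (FF N) (FF N') ∧ Module.finrank (FF N) (FF N') = 1 := by
  obtain ⟨h1, h2⟩ := finrank_FN N N' hle
  refine ⟨h1, ?_⟩
  have hpos := dedekindPsi_pos N
  rw [hψ] at h2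
  exact Nat.eq_of_mul_eq_mul_right hpos (h2.trans (one_mul _).symm)

/-- For a prime `p` and `N' = lcm(N, p)`: the index `[F_{N'} : F_N]` is `1` or `p + 1`. -/
theorem finrank_FN_lcm (N p : ℕ) [NeZero N] (hp : p.Prime)
    (hle : modularFunctionFieldBar N ≤ modularFunctionFieldBar (Nat.lcm N p)) :
    letI : Algebra (FF N) (FF (Nat.lcm N p)) :=
      (IntermediateField.inclusion hle).toRingHom.toAlgebra
    Module.Finite (FF N) (FF (Nat.lcm N p)) ∧
      (Module.finrank (FF N) (FF (Nat.lcm N p)) = 1 ∨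
        Module.finrank (FF N) (FF (Nat.lcm N p)) = p + 1) := by
  have : NeZero (Nat.lcm N p) := ⟨Nat.lcm_ne_zero (NeZero.ne N) hp.ne_zero⟩
  obtain ⟨h1, h2⟩ := finrank_FN N (Nat.lcm N p) hle
  refine ⟨h1, ?_⟩
  have hpos := dedekindPsi_pos N
  by_cases hpN : p ∣ N
  · left
    have h3 : dedekindPsi (Nat.lcm N p) = dedekindPsi N := by rw [Nat.lcm_eq_left hpN]
    rw [h3] at h2
    exact Nat.eq_of_mul_eq_mul_right hpos (h2.trans (one_mul _).symm)
  · right
    have hcop : Nat.Coprime N p := ((Nat.Prime.coprime_iff_not_dvd hp).mpr hpN).symm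
    have h3 : dedekindPsi (Nat.lcm N p) = (p + 1) * dedekindPsi N := by
      rw [hcop.lcm_eq_mul, S20.H77.dedekindPsi_mul_prime_of_not_dvd hp (NeZero.ne N) hpN]
    rw [h3] at h2
    exact Nat.eq_of_mul_eq_mul_right hpos h2

/-- **B6, case `ℓ = 3`** (`N' = lcm(N, 2)`): the index is prime to every `m` with `3 ∤ m`. -/
theorem coprime_finrank_FN_lcm_two (N : ℕ) [NeZero N] (m : ℕ) (hm : ¬ 3 ∣ m)
    (hle : modularFunctionFieldBar N ≤ modularFunctionFieldBar (Nat.lcm N 2)) :
    letI : Algebra (FF N) (FF (Nat.lcm N 2)) :=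
      (IntermediateField.inclusion hle).toRingHom.toAlgebra
    (Module.finrank (FF N) (FF (Nat.lcm N 2))).Coprime m ∧
      Module.Finite (FF N) (FF (Nat.lcm N 2)) := by
  obtain ⟨h1, h2⟩ := finrank_FN_lcm N 2 Nat.prime_two hle
  refine ⟨?_, h1⟩
  rcases h2 with h2 | h2
  · rw [h2]
    exact Nat.coprime_one_left m
  · rw [h2]
    exact (Nat.Prime.coprime_iff_not_dvd Nat.prime_three).mpr hm

/-- **B6, case `ℓ = 2`** (`N' = lcm(N, 3)`): the index is prime to every odd `m`. -/
theorem coprime_finrank_FN_lcm_three (N : ℕ) [NeZero N] (m : ℕ) (hm : ¬ 2 ∣ m)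
    (hle : modularFunctionFieldBar N ≤ modularFunctionFieldBar (Nat.lcm N 3)) :
    letI : Algebra (FF N) (FF (Nat.lcm N 3)) :=
      (IntermediateField.inclusion hle).toRingHom.toAlgebra
    (Module.finrank (FF N) (FF (Nat.lcm N 3))).Coprime m ∧
      Module.Finite (FF N) (FF (Nat.lcm N 3)) := by
  obtain ⟨h1, h2⟩ := finrank_FN_lcm N 3 Nat.prime_three hle
  refine ⟨?_, h1⟩
  rcases h2 with h2 | h2
  · rw [h2]
    exact Nat.coprime_one_left m
  · rw [h2]
    have h2m : Nat.Coprime 2 m := (Nat.Prime.coprime_iff_not_dvd Nat.prime_two).mpr hm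
    exact Nat.Coprime.pow_left 2 h2m

/-- **B6, case `ℓ ≥ 5`** (`N' = N`): the index is `1`. -/
theorem coprime_finrank_FN_of_eq (N N' : ℕ) [NeZero N] (hN' : N' = N) (m : ℕ)
    (hle : modularFunctionFieldBar N ≤ modularFunctionFieldBar N') :
    letI : Algebra (FF N) (FF N') := (IntermediateField.inclusion hle).toRingHom.toAlgebra
    (Module.finrank (FF N) (FF N')).Coprime m ∧ Module.Finite (FF N) (FF N') := by
  have : NeZero N' := ⟨hN' ▸ NeZero.ne N⟩
  obtain ⟨h1, h2⟩ := finrank_FN_of_psi_eq N N' hle (by rw [hN'])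
  refine ⟨?_, h1⟩
  rw [h2]
  exact Nat.coprime_one_left m

/-- The inclusions used above. -/
theorem modularFunctionFieldBar_le_lcm (N p : ℕ) [NeZero N] (hp : p ≠ 0) :
    modularFunctionFieldBar N ≤ modularFunctionFieldBar (Nat.lcm N p) := by
  have : NeZero (Nat.lcm N p) := ⟨Nat.lcm_ne_zero (NeZero.ne N) hp⟩
  exact modularFunctionFieldBar_mono (Nat.dvd_lcm_left N p)

end Fermat.Agent.S18.H87
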